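import Fermat.Agent.LT.T7.H963.Compress

/-!
# Row LT, tower T7, node `SimpleC`, leaf `DecompC` (helper593, OFF-MAIN)

ADDITIVE.  Spec: `T7/H963/Compress.lean` (helper963), `DecompC K`: every `g ∈ GL₂(𝔸_K)` is
peelable for every level `𝔫 ≠ 0`.

Proof.  Let `T` be the finite set of finite places `v` with `v ∣ 𝔫`, or `g_v` not integral, or
`g_v⁻¹` not integral.  Peel off the local elements `locFin129 v g_v` (`v ∈ T`), then the local
elements `locInf593 w g_w` (`w ∣ ∞`); the remaining factor `a⁻¹ g` has component `1` at `T` and at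
infinity and component `g_v ∈ GL₂(𝒪_v)` at `v ∉ T`, `v ∤ 𝔫`, hence lies in `U(𝔫)`
(`dense_ideal129`).
-/

set_option autoImplicit false
set_option linter.unusedSectionVars false
set_option linter.unusedVariables false

open IsDedekindDomain NumberField
open Fermat.Agent.LT.H556.A0
open Fermat.Agent.LT.H129

noncomputable section

namespace Fermat.Agent.LT.T7.H593DC

open Fermat.Agent.LT.T7.H963

variable {K : Type} [Field K] [NumberField K]

open scoped Classical

/-! ## 1. The local embedding at an infinite place -/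

/-- The infinite adele with component `x` at `w` and `1` (if `d = true`) resp. `0` elsewhere. -/
def infSingle593 (w : InfinitePlace K) (d : Bool) (x : w.Completion) : InfiniteAdeleRing K :=
  Function.update (fun w' : InfinitePlace K => (if d then 1 else 0 : w'.Completion)) w x

theorem infSingle593_same (w : InfinitePlace K) (d : Bool) (x : w.Completion) :
    infSingle593 w d x w = x := by
  unfold infSingle593
  exact Function.update_self _ _ _

theorem infSingle593_of_ne (w : InfinitePlace K) (d : Bool) (x : w.Completion)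
    {w' : InfinitePlace K} (h : w' ≠ w) :
    infSingle593 w d x w' = if d then 1 else 0 := by
  unfold infSingle593
  exact Function.update_of_ne h _ _

/-- The adelic matrix with component `M` at the infinite place `w` and `1` elsewhere. -/
def locInfMat593 (w : InfinitePlace K) (M : Matrix (Fin 2) (Fin 2) w.Completion) :
    Matrix (Fin 2) (Fin 2) (Adl K) :=
  fun i j => (infSingle593 w (decide (i = j)) (M i j),
    (1 : Matrix (Fin 2) (Fin 2) (FiniteAdeleRing (𝓞 K) K)) i j)

theorem locInfMat593_map_same (w : InfinitePlace K) (M : Matrix (Fin 2) (Fin 2) w.Completion) :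
    (locInfMat593 w M).map (evI129 w) = M := by
  refine Matrix.ext fun i j => ?_
  exact infSingle593_same w _ _

theorem locInfMat593_map_of_ne (w : InfinitePlace K) (M : Matrix (Fin 2) (Fin 2) w.Completion)
    {w' : InfinitePlace K} (h : w' ≠ w) : (locInfMat593 w M).map (evI129 w') = 1 := by
  refine Matrix.ext fun i j => ?_
  have e : ((locInfMat593 w M).map (evI129 w')) i j
      = infSingle593 w (decide (i = j)) (M i j) w' := rfl
  rw [e, infSingle593_of_ne w _ _ h]
  by_cases hij : i = j
  · subst hij; simp
  · simp [hij]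

theorem locInfMat593_map_fin (w : InfinitePlace K) (M : Matrix (Fin 2) (Fin 2) w.Completion)
    (v : HeightOneSpectrum (𝓞 K)) : (locInfMat593 w M).map (evF129 v) = 1 := by
  refine Matrix.ext fun i j => ?_
  have e : ((locInfMat593 w M).map (evF129 v)) i j
      = ((1 : Matrix (Fin 2) (Fin 2) (FiniteAdeleRing (𝓞 K) K)) i j) v := rfl
  rw [e]
  by_cases hij : i = j
  · subst hij; simp only [Matrix.one_apply_eq]; rfl
  · simp only [Matrix.one_apply_ne hij]; rfl

theorem locInfMat593_one (w : InfinitePlace K) : locInfMat593 w 1 = 1 := by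
  apply adeleMatrix_ext129
  · intro w'
    by_cases h : w' = w
    · subst h
      rw [locInfMat593_map_same, one_map_evI129]
    · rw [locInfMat593_map_of_ne w _ h, one_map_evI129]
  · intro v
    rw [locInfMat593_map_fin, one_map_evF129]

theorem locInfMat593_mul (w : InfinitePlace K) (M N : Matrix (Fin 2) (Fin 2) w.Completion) :
    locInfMat593 w (M * N) = locInfMat593 w M * locInfMat593 w N := by
  apply adeleMatrix_ext129
  · intro w'
    rw [Matrix.map_mul]
    by_cases h : w' = w
    · subst h
      rw [locInfMat593_map_same, locInfMat593_map_same, locInfMat593_map_same]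
    · rw [locInfMat593_map_of_ne w _ h, locInfMat593_map_of_ne w _ h,
        locInfMat593_map_of_ne w _ h, mul_one]
  · intro v
    rw [Matrix.map_mul, locInfMat593_map_fin, locInfMat593_map_fin, locInfMat593_map_fin, mul_one]

/-- **The local embedding** `GL₂(K_w) →* GL₂(𝔸_K)` at an infinite place. -/
def locInf593 (w : InfinitePlace K) : GL (Fin 2) w.Completion →* G K where
  toFun x :=
    { val := locInfMat593 w (x : Matrix (Fin 2) (Fin 2) w.Completion)
      inv := locInfMat593 w ((x⁻¹ : GL (Fin 2) w.Completion) :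
        Matrix (Fin 2) (Fin 2) w.Completion)
      val_inv := by
        rw [← locInfMat593_mul, ← Matrix.GeneralLinearGroup.coe_mul, mul_inv_cancel]
        exact locInfMat593_one w
      inv_val := by
        rw [← locInfMat593_mul, ← Matrix.GeneralLinearGroup.coe_mul, inv_mul_cancel]
        exact locInfMat593_one w }
  map_one' := Units.ext (locInfMat593_one w)
  map_mul' x y := Units.ext (locInfMat593_mul w _ _)

theorem coe_locInf593 (w : InfinitePlace K) (x : GL (Fin 2) w.Completion) :
    ((locInf593 w x : G K) : Matrix (Fin 2) (Fin 2) (Adl K))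
      = locInfMat593 w (x : Matrix (Fin 2) (Fin 2) w.Completion) := rfl

theorem infCompHom129_locInf593 (w : InfinitePlace K) (x : GL (Fin 2) w.Completion) :
    infCompHom129 w (locInf593 w x) = x := by
  apply Units.ext
  rw [coe_infCompHom129_map, coe_locInf593, locInfMat593_map_same]

theorem infCompHom129_locInf593_of_ne (w : InfinitePlace K) (x : GL (Fin 2) w.Completion)
    {w' : InfinitePlace K} (h : w' ≠ w) : infCompHom129 w' (locInf593 w x) = 1 := by
  apply Units.ext
  rw [coe_infCompHom129_map, coe_locInf593, locInfMat593_map_of_ne w _ h]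
  rfl

theorem finCompHom129_locInf593 (w : InfinitePlace K) (x : GL (Fin 2) w.Completion)
    (v : HeightOneSpectrum (𝓞 K)) : finCompHom129 v (locInf593 w x) = 1 := by
  apply Units.ext
  rw [coe_finCompHom129_map, coe_locInf593, locInfMat593_map_fin]
  rfl

theorem isLocalAtInf_locInf593 (w : InfinitePlace K) (x : GL (Fin 2) w.Completion) :
    IsLocalAtInf w (locInf593 w x) := by
  refine ⟨fun w' h => ?_, fun v => ?_⟩
  · rw [trivAtInf_iff129]
    exact infCompHom129_locInf593_of_ne w x h
  · rw [trivAtFin_iff129]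
    exact finCompHom129_locInf593 w x v

/-! ## 2. Peeling the finite places of a finite set -/

/-- Peel the finite places of `T`. -/
theorem peel_fin593 (𝔫 : Ideal (𝓞 K)) (g : G K) (T : Finset (HeightOneSpectrum (𝓞 K))) :
    ∃ a : G K, Peel 𝔫 a ∧ (∀ w : InfinitePlace K, infCompHom129 w a = 1) ∧
      (∀ v ∈ T, finCompHom129 v a = finCompHom129 v g) ∧
      ∀ v ∉ T, finCompHom129 v a = 1 := by
  induction T using Finset.induction_on with
  | empty =>
    exact ⟨1, Peel.one, fun w => map_one _, fun v hv => absurd hv (Finset.notMem_empty v),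
      fun v _ => map_one _⟩
  | insert v T hvT ih =>
    obtain ⟨a, ha, haI, haT, haN⟩ := ih
    refine ⟨a * locFin129 v (finCompHom129 v g),
      Peel.fin _ v ha ((trivAtFin_iff129 v a).mpr (haN v hvT)) (isLocalAtFin_locFin129 v _),
      fun w => ?_, fun v' hv' => ?_, fun v' hv' => ?_⟩
    · rw [map_mul, haI w, infCompHom129_locFin129, mul_one]
    · by_cases h : v' = v
      · subst h
        rw [map_mul, haN v' hvT, finCompHom129_locFin129, one_mul]
      · have hv'T : v' ∈ T := (Finset.mem_insert.mp hv').resolve_left h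
        rw [map_mul, haT v' hv'T, finCompHom129_locFin129_of_ne v _ h, mul_one]
    · have h : v' ≠ v := fun h => hv' (h ▸ Finset.mem_insert_self v T)
      have hv'T : v' ∉ T := fun h' => hv' (Finset.mem_insert_of_mem h')
      rw [map_mul, haN v' hv'T, finCompHom129_locFin129_of_ne v _ h, mul_one]

/-- Peel the finite places of `T` and the infinite places of `S`. -/
theorem peel_inf593 (𝔫 : Ideal (𝓞 K)) (g : G K) (T : Finset (HeightOneSpectrum (𝓞 K)))
    (S : Finset (InfinitePlace K)) :
    ∃ a : G K, Peel 𝔫 a ∧ (∀ w ∈ S, infCompHom129 w a = infCompHom129 w g) ∧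
      (∀ w ∉ S, infCompHom129 w a = 1) ∧
      (∀ v ∈ T, finCompHom129 v a = finCompHom129 v g) ∧
      ∀ v ∉ T, finCompHom129 v a = 1 := by
  induction S using Finset.induction_on with
  | empty =>
    obtain ⟨a, ha, haI, haT, haN⟩ := peel_fin593 𝔫 g T
    exact ⟨a, ha, fun w hw => absurd hw (Finset.notMem_empty w), fun w _ => haI w, haT, haN⟩
  | insert w S hwS ih =>
    obtain ⟨a, ha, haS, haI, haT, haN⟩ := ih
    refine ⟨a * locInf593 w (infCompHom129 w g),
      Peel.inf _ w ha ((trivAtInf_iff129 w a).mpr (haI w hwS)) (isLocalAtInf_locInf593 w _),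
      fun w' hw' => ?_, fun w' hw' => ?_, fun v hv => ?_, fun v hv => ?_⟩
    · by_cases h : w' = w
      · subst h
        rw [map_mul, haI w' hwS, infCompHom129_locInf593, one_mul]
      · have hw'S : w' ∈ S := (Finset.mem_insert.mp hw').resolve_left h
        rw [map_mul, haS w' hw'S, infCompHom129_locInf593_of_ne w _ h, mul_one]
    · have h : w' ≠ w := fun h => hw' (h ▸ Finset.mem_insert_self w S)
      have hw'S : w' ∉ S := fun h' => hw' (Finset.mem_insert_of_mem h')
      rw [map_mul, haI w' hw'S, infCompHom129_locInf593_of_ne w _ h, mul_one]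
    · rw [map_mul, haT v hv, finCompHom129_locInf593, mul_one]
    · rw [map_mul, haN v hv, finCompHom129_locInf593, mul_one]

/-! ## 3. The bad set is finite -/

/-- Almost every finite place is prime to `𝔫` and `g`, `g⁻¹` are integral there. -/
theorem eventually_good593 {𝔫 : Ideal (𝓞 K)} (h𝔫 : 𝔫 ≠ ⊥) (g : G K) :
    ∀ᶠ v : HeightOneSpectrum (𝓞 K) in Filter.cofinite,
      ¬ v.asIdeal ∣ 𝔫 ∧ IsIntegralAt v g ∧ IsIntegralAt v g⁻¹ := by
  have h1 : ∀ᶠ v : HeightOneSpectrum (𝓞 K) in Filter.cofinite, ¬ v.asIdeal ∣ 𝔫 := by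
    rw [Filter.eventually_cofinite]
    simp only [not_not]
    exact Ideal.finite_factors h𝔫
  have h2 : ∀ x : G K, ∀ᶠ v : HeightOneSpectrum (𝓞 K) in Filter.cofinite, IsIntegralAt v x := by
    intro x
    unfold IsIntegralAt
    rw [Filter.eventually_all]
    intro i
    rw [Filter.eventually_all]
    intro j
    exact ((x : Matrix (Fin 2) (Fin 2) (Adl K)) i j).2.2
  exact h1.and ((h2 g).and (h2 g⁻¹))

/-! ## 4. The leaf -/

theorem one_entry_int593 (v : HeightOneSpectrum (𝓞 K)) (i j : Fin 2) :
    Valued.v ((1 : Matrix (Fin 2) (Fin 2) (v.adicCompletion K)) i j) ≤ 1 := by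
  by_cases hij : i = j
  · subst hij; simp
  · simp [hij]

/-- **LEAF `DecompC`**: every element of `GL₂(𝔸_K)` is peelable. -/
theorem decompC593 (K : Type) [Field K] [NumberField K] : DecompC K := by
  intro 𝔫 h𝔫 g
  have hev := eventually_good593 h𝔫 g
  rw [Filter.eventually_cofinite] at hev
  set T : Finset (HeightOneSpectrum (𝓞 K)) := hev.toFinset with hT
  have hTmem : ∀ v : HeightOneSpectrum (𝓞 K), v ∉ T →
      ¬ v.asIdeal ∣ 𝔫 ∧ IsIntegralAt v g ∧ IsIntegralAt v g⁻¹ := by
    intro v hv
    by_contra hcon
    exact hv (hev.mem_toFinset.mpr hcon)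
  obtain ⟨a, ha, haS, -, haT, haN⟩ := peel_inf593 𝔫 g T Finset.univ
  have hk : InLevelGroup 𝔫 (a⁻¹ * g) := by
    refine ⟨fun w => ?_, fun v i j => ?_⟩
    · rw [trivAtInf_iff129, map_mul, map_inv, haS w (Finset.mem_univ w), inv_mul_cancel]
    · by_cases hv : v ∈ T
      · have e1 : finCompHom129 v (a⁻¹ * g) = 1 := by
          rw [map_mul, map_inv, haT v hv, inv_mul_cancel]
        have e2 : finCompHom129 v (a⁻¹ * g)⁻¹ = 1 := by
          rw [map_inv, e1, inv_one]
        have f1 : finComp v (a⁻¹ * g) = 1 := by
          rw [← coe_finCompHom129, e1]; rfl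
        have f2 : finComp v (a⁻¹ * g)⁻¹ = 1 := by
          rw [← coe_finCompHom129, e2]; rfl
        rw [f1, f2, sub_self]
        exact ⟨zero_mem_idealClosure129 𝔫 v, zero_mem_idealClosure129 𝔫 v⟩
      · obtain ⟨hdvd, hint, hint'⟩ := hTmem v hv
        have e1 : finCompHom129 v (a⁻¹ * g) = finCompHom129 v g := by
          rw [map_mul, map_inv, haN v hv, inv_one, one_mul]
        have e2 : finCompHom129 v (a⁻¹ * g)⁻¹ = finCompHom129 v g⁻¹ := by
          rw [map_inv, e1, map_inv]
        have f1 : finComp v (a⁻¹ * g) = finComp v g := by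
          rw [← coe_finCompHom129, e1]; rfl
        have f2 : finComp v (a⁻¹ * g)⁻¹ = finComp v g⁻¹ := by
          rw [← coe_finCompHom129, e2]; rfl
        rw [f1, f2]
        constructor
        · apply dense_ideal129 hdvd
          rw [Matrix.sub_apply]
          exact le_trans (Valuation.map_sub _ _ _) (max_le (hint i j) (one_entry_int593 v i j))
        · apply dense_ideal129 hdvd
          rw [Matrix.sub_apply]
          exact le_trans (Valuation.map_sub _ _ _) (max_le (hint' i j) (one_entry_int593 v i j))
  have := Peel.lvl (a⁻¹ * g) ha hk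
  rwa [mul_inv_cancel_left] at this

end Fermat.Agent.LT.T7.H593DC

end
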