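import Fermat.Agent.LT.T7.H963.Compress
import Fermat.Agent.LT.T7.H949.FinProjLocal
import Fermat.Agent.LT.T7.H593.Decomp

/-!
# Row LT, tower T7, node `SimpleC`, leaves `BadSystemExistsC`, `IwSystemExistsC`, `UnitC`
(helper593, OFF-MAIN, spare)

ADDITIVE.  Spec: `T7/H963/Compress.lean` (helper963).  Asset: `T7/H949/FinProjLocal.lean`
(helper949, byte-identical copy): `U949 𝔫` is a subgroup, `finite_quot949`.

* `exists_dblSys593` (abstract groups): `U`, `V` subgroups, `U / (U ∩ V)` finite,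
  `h⁻¹ (U ∩ V) h ⊆ U`: a full system of representatives of `U h U / U` exists.
* `exists_level_conj593`: for every `h ∈ GL₂(𝔸_K)` and `𝔫 ≠ 0` there is `𝔪 ≠ 0` with
  `h⁻¹ U(𝔪) h ⊆ U(𝔫)` (`𝔪 = d 𝔫`, `d` a common denominator of the products of the entries of
  `h⁻¹` and `h`).
* `badSystemExistsC593 : BadSystemExistsC K`, `iwSystemExistsC593 : IwSystemExistsC K`,
  `unitC593 : UnitC K`.
-/

set_option autoImplicit false
set_option linter.unusedSectionVars false
set_option linter.unusedVariables false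
set_option linter.style.haveILetI false

open IsDedekindDomain NumberField
open Fermat.Agent.LT.H556.A0
open Fermat.Agent.LT.H129

noncomputable section

namespace Fermat.Agent.LT.T7.H593DS

open Fermat.Agent.LT.T7.H963 Fermat.Agent.LT.T7.H949 Fermat.Agent.LT.T7.H593DC

/-! ## 1. Abstract groups -/

/-- A full system of representatives of `U h U / U` exists as soon as a subgroup `V` with
`U / (U ∩ V)` finite is conjugated into `U` by `h`. -/
theorem exists_dblSys593 {Γ : Type*} [Group Γ] (U V : Subgroup Γ)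
    [Finite (U ⧸ V.subgroupOf U)] (h : Γ)
    (hconj : ∀ u : Γ, u ∈ U → u ∈ V → h⁻¹ * u * h ∈ U) :
    ∃ H : Finset Γ, (∀ x ∈ H, ∃ u₁ u₂ : Γ, u₁ ∈ U ∧ u₂ ∈ U ∧ x = u₁ * h * u₂) ∧
      (∀ x ∈ H, ∀ x' ∈ H, x ≠ x' → x⁻¹ * x' ∉ U) ∧
      ∀ u : Γ, u ∈ U → ∃ x ∈ H, x⁻¹ * (u * h) ∈ U := by
  classical
  haveI : Fintype (U ⧸ V.subgroupOf U) := Fintype.ofFinite _
  let c : U ⧸ V.subgroupOf U → Γ ⧸ U := fun q =>
    (QuotientGroup.mk (((Quotient.out q : U) : Γ) * h) : Γ ⧸ U)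
  let φ : U ⧸ V.subgroupOf U → Γ := fun q => Quotient.out (c q)
  have hφ : ∀ q, (((Quotient.out q : U) : Γ) * h)⁻¹ * φ q ∈ U := by
    intro q
    have h1 : (QuotientGroup.mk (φ q) : Γ ⧸ U) = c q := QuotientGroup.out_eq' (c q)
    exact QuotientGroup.eq.mp h1.symm
  refine ⟨Finset.univ.image φ, ?_, ?_, ?_⟩
  · intro x hx
    obtain ⟨q, -, rfl⟩ := Finset.mem_image.mp hx
    refine ⟨((Quotient.out q : U) : Γ), _, (Quotient.out q : U).2, hφ q, ?_⟩
    group
  · intro x hx x' hx' hne hmem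
    obtain ⟨q, -, rfl⟩ := Finset.mem_image.mp hx
    obtain ⟨q', -, rfl⟩ := Finset.mem_image.mp hx'
    apply hne
    have h1 : (QuotientGroup.mk (φ q) : Γ ⧸ U) = QuotientGroup.mk (φ q') :=
      QuotientGroup.eq.mpr hmem
    have h2 : c q = c q' := by
      rw [← QuotientGroup.out_eq' (c q), ← QuotientGroup.out_eq' (c q')]
      exact h1
    show Quotient.out (c q) = Quotient.out (c q')
    rw [h2]
  · intro u hu
    set q : U ⧸ V.subgroupOf U := QuotientGroup.mk (⟨u, hu⟩ : U) with hq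
    refine ⟨φ q, Finset.mem_image.mpr ⟨q, Finset.mem_univ q, rfl⟩, ?_⟩
    have h1 : (QuotientGroup.mk (Quotient.out q) : U ⧸ V.subgroupOf U)
        = QuotientGroup.mk (⟨u, hu⟩ : U) := QuotientGroup.out_eq' q
    have h2 : (Quotient.out q : U)⁻¹ * (⟨u, hu⟩ : U) ∈ V.subgroupOf U := QuotientGroup.eq.mp h1
    rw [Subgroup.mem_subgroupOf] at h2
    have h3 : (((Quotient.out q : U) : Γ))⁻¹ * u ∈ V := h2
    have h4 : (((Quotient.out q : U) : Γ))⁻¹ * u ∈ U :=
      U.mul_mem (U.inv_mem (Quotient.out q : U).2) hu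
    have h5 := hconj _ h4 h3
    have h6 : (φ q)⁻¹ * (((Quotient.out q : U) : Γ) * h) ∈ U := by
      have := U.inv_mem (hφ q)
      rwa [mul_inv_rev, inv_inv] at this
    have e : (φ q)⁻¹ * (u * h)
        = ((φ q)⁻¹ * (((Quotient.out q : U) : Γ) * h))
          * (h⁻¹ * ((((Quotient.out q : U) : Γ))⁻¹ * u) * h) := by
      group
    rw [e]
    exact U.mul_mem h6 h5

/-! ## 2. Conjugation of a small level group into the level group -/

variable {K : Type} [Field K] [NumberField K]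

/-- Powers of an element `< 1` become small. -/
theorem pow_small593 (x y : WithZero (Multiplicative ℤ)) (hx : x < 1) :
    ∃ N : ℕ, ∀ n, N ≤ n → y * x ^ n ≤ 1 := by
  by_cases hy : y = 0
  · exact ⟨0, fun n _ => by rw [hy, zero_mul]; exact zero_le_one⟩
  · have hy' : y⁻¹ ≠ 0 := inv_ne_zero hy
    obtain ⟨N, hN⟩ := exists_pow_lt₀ hx (Units.mk0 _ hy')
    refine ⟨N, fun n hn => ?_⟩
    have h1 : x ^ n ≤ x ^ N := pow_le_pow_of_le_one zero_le hx.le hn
    have h2 : x ^ n ≤ y⁻¹ := h1.trans hN.le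
    calc y * x ^ n ≤ y * y⁻¹ := by gcongr
      _ = 1 := mul_inv_cancel₀ hy

/-- The same for a finite family. -/
theorem pow_small_fam593 {ι : Type*} [Fintype ι] (x : WithZero (Multiplicative ℤ)) (hx : x < 1)
    (y : ι → WithZero (Multiplicative ℤ)) : ∃ N : ℕ, ∀ i n, N ≤ n → y i * x ^ n ≤ 1 := by
  classical
  choose N hN using fun i => pow_small593 x (y i) hx
  exact ⟨∑ i, N i, fun i n hn => hN i n
    ((Finset.single_le_sum (fun _ _ => Nat.zero_le _) (Finset.mem_univ i)).trans hn)⟩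

/-- `a (d 𝔫 𝒪_v) b ⊆ 𝔫 𝒪_v` if `a b d` is integral. -/
theorem conj_mem_idealClosure593 (𝔫 : Ideal (𝓞 K)) (d : 𝓞 K) (v : HeightOneSpectrum (𝓞 K))
    {a b x : v.adicCompletion K} (hab : Valued.v (a * b * loc949 v d) ≤ 1)
    (hx : x ∈ idealClosure (Ideal.span {d} * 𝔫) v) : a * x * b ∈ idealClosure 𝔫 v := by
  have hcont : Continuous (fun z : v.adicCompletion K => a * z * b) :=
    (continuous_const.mul continuous_id).mul continuous_const
  have hcl : IsClosed ((fun z : v.adicCompletion K => a * z * b) ⁻¹' (idealClosure 𝔫 v)) := by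
    refine IsClosed.preimage hcont ?_
    rw [idealClosure_eq949]
    exact isClosed_closure
  have hsub : (loc949 v) '' ((Ideal.span {d} * 𝔫 : Ideal (𝓞 K)) : Set (𝓞 K))
      ⊆ (fun z : v.adicCompletion K => a * z * b) ⁻¹' (idealClosure 𝔫 v) := by
    rintro _ ⟨m, hm, rfl⟩
    obtain ⟨z, hz, rfl⟩ := Ideal.mem_span_singleton_mul.mp hm
    show a * loc949 v (d * z) * b ∈ idealClosure 𝔫 v
    have e : a * loc949 v (d * z) * b = (a * b * loc949 v d) * loc949 v z := by
      rw [map_mul]; ring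
    rw [e]
    exact mul_mem_idealClosure949 𝔫 v hab (loc_mem_idealClosure949 𝔫 v hz)
  rw [idealClosure_eq949] at hx
  exact closure_minimal hsub hcl hx

/-- Conjugation of a matrix congruent to `1` modulo `d 𝔫`. -/
theorem conj_sub_one593 (𝔫 : Ideal (𝓞 K)) (d : 𝓞 K) (v : HeightOneSpectrum (𝓞 K))
    {A Ai B : Matrix (Fin 2) (Fin 2) (v.adicCompletion K)} (hAi : Ai * A = 1)
    (hd : ∀ i k l j : Fin 2, Valued.v (Ai i k * A l j * loc949 v d) ≤ 1)
    (hB : ∀ i j, (B - 1) i j ∈ idealClosure (Ideal.span {d} * 𝔫) v) (i j : Fin 2) :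
    (Ai * B * A - 1) i j ∈ idealClosure 𝔫 v := by
  have e : Ai * B * A - 1 = Ai * (B - 1) * A := by
    rw [mul_sub, mul_one, sub_mul, hAi]
  rw [e, Matrix.mul_apply, Fin.sum_univ_two, Matrix.mul_apply, Matrix.mul_apply,
    Fin.sum_univ_two, Fin.sum_univ_two, add_mul, add_mul]
  refine add_mem_idealClosure949 𝔫 v (add_mem_idealClosure949 𝔫 v ?_ ?_)
    (add_mem_idealClosure949 𝔫 v ?_ ?_)
  · exact conj_mem_idealClosure593 𝔫 d v (hd i 0 0 j) (hB 0 0)
  · exact conj_mem_idealClosure593 𝔫 d v (hd i 1 0 j) (hB 1 0)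
  · exact conj_mem_idealClosure593 𝔫 d v (hd i 0 1 j) (hB 0 1)
  · exact conj_mem_idealClosure593 𝔫 d v (hd i 1 1 j) (hB 1 1)

theorem loc_int593 (v : HeightOneSpectrum (𝓞 K)) (a : 𝓞 K) : Valued.v (loc949 v a) ≤ 1 :=
  HeightOneSpectrum.coe_mem_adicCompletionIntegers v a

theorem loc_lt_one593 (v : HeightOneSpectrum (𝓞 K)) {a : 𝓞 K} (ha : a ∈ v.asIdeal) :
    Valued.v (loc949 v a) < 1 := by
  have e0 : Valued.v (loc949 v a) = v.valuation K (algebraMap (𝓞 K) K a) :=
    HeightOneSpectrum.valuedAdicCompletion_eq_valuation' v (algebraMap (𝓞 K) K a)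
  rw [e0]
  exact (HeightOneSpectrum.valuation_lt_one_iff_mem v a).mpr ha

/-- A common denominator of the products of the entries of `h⁻¹` and `h`. -/
theorem exists_den593 (h : G K) : ∃ d : 𝓞 K, d ≠ 0 ∧
    ∀ (v : HeightOneSpectrum (𝓞 K)) (i k l j : Fin 2),
      Valued.v (finComp v h⁻¹ i k * finComp v h l j * loc949 v d) ≤ 1 := by
  classical
  have hev := eventually_good593 (K := K) (𝔫 := ⊤) top_ne_bot h
  rw [Filter.eventually_cofinite] at hev
  set T : Finset (HeightOneSpectrum (𝓞 K)) := hev.toFinset with hT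
  have hTmem : ∀ v : HeightOneSpectrum (𝓞 K), v ∉ T →
      IsIntegralAt v h ∧ IsIntegralAt v h⁻¹ := by
    intro v hv
    by_contra hcon
    exact hv (hev.mem_toFinset.mpr fun hh => hcon hh.2)
  -- an element of all the primes of `T`
  have hI : (∏ v ∈ T, v.asIdeal) ≠ ⊥ := by
    rw [← Ideal.zero_eq_bot]
    exact Finset.prod_ne_zero_iff.mpr fun v _ => v.ne_bot
  obtain ⟨π, hπI, hπ0⟩ := Submodule.exists_mem_ne_zero_of_ne_bot hI
  have hπv : ∀ v ∈ T, π ∈ v.asIdeal := fun v hv =>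
    (Ideal.prod_le_inf.trans (Finset.inf_le hv)) hπI
  have hN : ∀ v : HeightOneSpectrum (𝓞 K), ∃ N : ℕ, v ∈ T →
      ∀ (p : (Fin 2 × Fin 2) × (Fin 2 × Fin 2)) (n : ℕ), N ≤ n →
        Valued.v (finComp v h⁻¹ p.1.1 p.1.2 * finComp v h p.2.1 p.2.2)
          * Valued.v (loc949 v π) ^ n ≤ 1 := by
    intro v
    by_cases hv : v ∈ T
    · obtain ⟨N, hN⟩ := pow_small_fam593 (Valued.v (loc949 v π)) (loc_lt_one593 v (hπv v hv))
        (fun p : (Fin 2 × Fin 2) × (Fin 2 × Fin 2) =>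
          Valued.v (finComp v h⁻¹ p.1.1 p.1.2 * finComp v h p.2.1 p.2.2))
      exact ⟨N, fun _ p n hn => hN p n hn⟩
    · exact ⟨0, fun hv' => absurd hv' hv⟩
  choose N hN using hN
  refine ⟨π ^ (∑ v ∈ T, N v), pow_ne_zero _ hπ0, fun v i k l j => ?_⟩
  by_cases hv : v ∈ T
  · have h1 := hN v hv ((i, k), (l, j)) (∑ v ∈ T, N v)
      (Finset.single_le_sum (fun _ _ => Nat.zero_le _) hv)
    rw [map_mul, map_pow, map_pow]
    exact h1
  · obtain ⟨hint, hint'⟩ := hTmem v hv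
    rw [map_mul, map_mul]
    exact mul_le_one' (mul_le_one' (hint' i k) (hint l j)) (loc_int593 v _)

/-- **Conjugation into the level group.** -/
theorem exists_level_conj593 (𝔫 : Ideal (𝓞 K)) (h𝔫 : 𝔫 ≠ ⊥) (h : G K) :
    ∃ 𝔪 : Ideal (𝓞 K), 𝔪 ≠ ⊥ ∧
      ∀ u : G K, InLevelGroup 𝔪 u → InLevelGroup 𝔫 (h⁻¹ * u * h) := by
  obtain ⟨d, hd0, hd⟩ := exists_den593 h
  refine ⟨Ideal.span {d} * 𝔫, ?_, ?_⟩
  · intro hbot
    rcases Ideal.mul_eq_bot.mp hbot with h1 | h1
    · exact hd0 (Ideal.span_singleton_eq_bot.mp h1)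
    · exact h𝔫 h1
  · intro u hu
    refine ⟨fun w => ?_, fun v i j => ⟨?_, ?_⟩⟩
    · rw [trivAtInf_iff129, map_mul, map_mul, map_inv, (trivAtInf_iff129 w u).mp (hu.1 w),
        mul_one, inv_mul_cancel]
    · rw [finComp_mul949, finComp_mul949]
      exact conj_sub_one593 𝔫 d v (finComp_inv_mul949 v h) (hd v)
        (fun i j => (hu.2 v i j).1) i j
    · have e : (h⁻¹ * u * h)⁻¹ = h⁻¹ * u⁻¹ * h := by group
      rw [e, finComp_mul949, finComp_mul949]
      exact conj_sub_one593 𝔫 d v (finComp_inv_mul949 v h) (hd v)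
        (fun i j => (hu.2 v i j).2) i j

/-! ## 3. The leaf `BadSystemExistsC` -/

/-- A full system of representatives of `U(𝔫) h U(𝔫) / U(𝔫)` exists, for EVERY `h`. -/
theorem exists_isDblCosetSystem593 (𝔫 : Ideal (𝓞 K)) (h𝔫 : 𝔫 ≠ ⊥) (h : G K) :
    ∃ H : Finset (G K), IsDblCosetSystem 𝔫 h H := by
  obtain ⟨𝔪, h𝔪, hconj⟩ := exists_level_conj593 𝔫 h𝔫 h
  haveI : Finite (U949 𝔫 ⧸ (U949 𝔪).subgroupOf (U949 𝔫)) :=
    finite_quot949 𝔪 h𝔪 (U949 𝔫) (U_le_K0949 𝔫)
  obtain ⟨H, h1, h2, h3⟩ := exists_dblSys593 (U949 𝔫) (U949 𝔪) h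
    (fun u _ hu => hconj u hu)
  exact ⟨H, h1, h2, h3⟩

/-- **LEAF `BadSystemExistsC`.** -/
theorem badSystemExistsC593 (K : Type) [Field K] [NumberField K] : BadSystemExistsC K :=
  fun 𝔫 h𝔫 h _ => exists_isDblCosetSystem593 𝔫 h𝔫 h

/-! ## 4. The Iwahori subgroup at `w` -/

/-- The lower left entry of the inverse of an Iwahori matrix. -/
theorem inv_lowerLeft593 (v : HeightOneSpectrum (𝓞 K))
    {A Ai : Matrix (Fin 2) (Fin 2) (v.adicCompletion K)} (hAi : Ai * A = 1)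
    (hA : ∀ i j, Valued.v (A i j) ≤ 1) (hAi' : ∀ i j, Valued.v (Ai i j) ≤ 1)
    (h10 : Valued.v (A 1 0) < 1) : Valued.v (Ai 1 0) < 1 := by
  have hdet : ∀ M : Matrix (Fin 2) (Fin 2) (v.adicCompletion K),
      (∀ i j, Valued.v (M i j) ≤ 1) → Valued.v M.det ≤ 1 := by
    intro M hM
    rw [Matrix.det_fin_two]
    refine (Valuation.map_sub _ _ _).trans (max_le ?_ ?_)
    · rw [map_mul]; exact mul_le_one' (hM 0 0) (hM 1 1)
    · rw [map_mul]; exact mul_le_one' (hM 0 1) (hM 1 0)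
  have hprod : Ai.det * A.det = 1 := by
    rw [← Matrix.det_mul, hAi, Matrix.det_one]
  have hvprod : Valued.v Ai.det * Valued.v A.det = 1 := by
    rw [← map_mul, hprod, map_one]
  have hdA : Valued.v A.det = 1 := by
    refine le_antisymm (hdet A hA) ?_
    by_contra hlt
    rw [not_le] at hlt
    have : Valued.v Ai.det * Valued.v A.det < 1 := by
      calc Valued.v Ai.det * Valued.v A.det ≤ 1 * Valued.v A.det := by
            gcongr
            exact hdet Ai hAi'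
        _ = Valued.v A.det := one_mul _
        _ < 1 := hlt
    rw [hvprod] at this
    exact lt_irrefl _ this
  have hadj : A.adjugate = A.det • Ai := by
    calc A.adjugate = (Ai * A) * A.adjugate := by rw [hAi, one_mul]
      _ = Ai * (A * A.adjugate) := by rw [mul_assoc]
      _ = Ai * (A.det • (1 : Matrix (Fin 2) (Fin 2) (v.adicCompletion K))) := by
          rw [Matrix.mul_adjugate]
      _ = A.det • Ai := by rw [Matrix.mul_smul, mul_one]
  have h1 : -A 1 0 = A.det * Ai 1 0 := by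
    have := congrFun (congrFun hadj 1) 0
    rw [Matrix.adjugate_fin_two] at this
    simpa using this
  have h2 : Valued.v (Ai 1 0) = Valued.v (A 1 0) := by
    have := congrArg Valued.v h1
    rw [Valuation.map_neg, map_mul, hdA, one_mul] at this
    exact this.symm
  rw [h2]
  exact h10

theorem isIntegralAt_iff593 (v : HeightOneSpectrum (𝓞 K)) (g : G K) :
    IsIntegralAt v g ↔ ∀ i j, Valued.v (finComp v g i j) ≤ 1 := Iff.rfl

/-- The Iwahori subgroup at `w` (elements supported at `w`). -/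
def Iw593 (w : HeightOneSpectrum (𝓞 K)) : Subgroup (G K) where
  carrier := {k | IsLocalAtFin w k ∧ T5.InIwahori w k}
  one_mem' := by
    refine ⟨isLocalAtFin_one129 w, isIntegralAt_one949 w, ?_, ?_⟩
    · rw [inv_one]
      exact isIntegralAt_one949 w
    · rw [finComp_one949, Matrix.one_apply_ne (by decide), map_zero]
      exact zero_lt_one
  mul_mem' := by
    rintro g h ⟨hgl, hg1, hg2, hg3⟩ ⟨hhl, hh1, hh2, hh3⟩
    refine ⟨isLocalAtFin_mul129 hgl hhl, isIntegralAt_mul949 hg1 hh1, ?_, ?_⟩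
    · rw [mul_inv_rev]
      exact isIntegralAt_mul949 hh2 hg2
    · rw [finComp_mul949, Matrix.mul_apply, Fin.sum_univ_two]
      refine Valuation.map_add_lt _ ?_ ?_
      · rw [map_mul]
        calc Valued.v (finComp w g 1 0) * Valued.v (finComp w h 0 0)
            ≤ Valued.v (finComp w g 1 0) * 1 := by
              gcongr
              exact hh1 0 0
          _ = Valued.v (finComp w g 1 0) := mul_one _
          _ < 1 := hg3
      · rw [map_mul]
        calc Valued.v (finComp w g 1 1) * Valued.v (finComp w h 1 0)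
            ≤ 1 * Valued.v (finComp w h 1 0) := by
              gcongr
              exact hg1 1 1
          _ = Valued.v (finComp w h 1 0) := one_mul _
          _ < 1 := hh3
  inv_mem' := by
    rintro g ⟨hgl, hg1, hg2, hg3⟩
    refine ⟨isLocalAtFin_inv129 hgl, hg2, ?_, ?_⟩
    · rw [inv_inv]
      exact hg1
    · exact inv_lowerLeft593 w (finComp_inv_mul949 w g) hg1 hg2 hg3

theorem mem_Iw593 {w : HeightOneSpectrum (𝓞 K)} {k : G K} : k ∈ Iw593 w ↔ IsIwElt w k :=
  Iff.rfl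

theorem Iw_le_K0593 (w : HeightOneSpectrum (𝓞 K)) : Iw593 w ≤ K0949 K := by
  rintro k ⟨hkl, hk1, hk2, -⟩
  have hkl' := isLocalAtFin_inv129 hkl
  refine ⟨hkl.1, fun v => ?_⟩
  by_cases hv : v = w
  · subst hv
    exact ⟨hk1, hk2⟩
  · exact ⟨isIntegralAt_of_trivAtFin949 (hkl.2 v hv),
      isIntegralAt_of_trivAtFin949 (hkl'.2 v hv)⟩

/-- The closure of the prime ideal lies in the open unit ball. -/
theorem lt_one_of_mem_idealClosure593 (w : HeightOneSpectrum (𝓞 K)) {x : w.adicCompletion K}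
    (hx : x ∈ idealClosure w.asIdeal w) : Valued.v x < 1 := by
  have hB : {z : w.adicCompletion K | Valued.v (z - x) < 1} ∈ nhds x := by
    rw [Valued.mem_nhds]
    refine ⟨1, fun z hz => ?_⟩
    simpa using hz
  rw [idealClosure_eq949] at hx
  obtain ⟨_, hz, ⟨a, ha, rfl⟩⟩ := mem_closure_iff_nhds.mp hx _ hB
  have hz' : Valued.v (loc949 w a - x) < 1 := hz
  have e : x = loc949 w a - (loc949 w a - x) := by ring
  rw [e]
  exact (Valuation.map_sub _ _ _).trans_lt (max_lt (loc_lt_one593 w ha) hz')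

/-- The level group of the prime `w` lies in the Iwahori subgroup at `w`. -/
theorem inIwahori_of_level593 (w : HeightOneSpectrum (𝓞 K)) {g : G K}
    (hg : InLevelGroup w.asIdeal g) : T5.InIwahori w g := by
  refine ⟨fun i j => ?_, fun i j => ?_, ?_⟩
  · exact integral_of_sub_one949 w.asIdeal w (fun i j => (hg.2 w i j).1) i j
  · exact integral_of_sub_one949 w.asIdeal w (fun i j => (hg.2 w i j).2) i j
  · have h1 := (hg.2 w 1 0).1
    rw [Matrix.sub_apply, Matrix.one_apply_ne (by decide), sub_zero] at h1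
    exact lt_one_of_mem_idealClosure593 w h1

/-! ## 5. The leaves `IwSystemExistsC`, `UnitC` -/

/-- **LEAF `IwSystemExistsC`.** -/
theorem iwSystemExistsC593 (K : Type) [Field K] [NumberField K] : IwSystemExistsC K := by
  intro w h hh
  obtain ⟨𝔪, h𝔪, hconj⟩ := exists_level_conj593 w.asIdeal w.ne_bot h
  haveI : Finite (Iw593 w ⧸ (U949 𝔪).subgroupOf (Iw593 w)) :=
    finite_quot949 𝔪 h𝔪 (Iw593 w) (Iw_le_K0593 w)
  obtain ⟨H, h1, h2, h3⟩ := exists_dblSys593 (Iw593 w) (U949 𝔪) h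
    (fun u hu hu' => ⟨isLocalAtFin_mul129 (isLocalAtFin_mul129 (isLocalAtFin_inv129 hh) hu.1) hh,
      inIwahori_of_level593 w (hconj u hu')⟩)
  have hloc : ∀ x ∈ H, IsLocalAtFin w x := by
    intro x hx
    obtain ⟨k₁, k₂, hk₁, hk₂, rfl⟩ := h1 x hx
    exact isLocalAtFin_mul129 (isLocalAtFin_mul129 hk₁.1 hh) hk₂.1
  refine ⟨H, h1, fun x hx x' hx' hne hmem => ?_, fun k hk => ?_⟩
  · exact h2 x hx x' hx' hne
      ⟨isLocalAtFin_mul129 (isLocalAtFin_inv129 (hloc x hx)) (hloc x' hx'), hmem⟩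
  · obtain ⟨x, hx, hmem⟩ := h3 k hk
    exact ⟨x, hx, hmem.2⟩

/-- **LEAF `UnitC`.** -/
theorem unitC593 (K : Type) [Field K] [NumberField K] : UnitC K :=
  ⟨fun 𝔫 => (U949 𝔫).one_mem, fun w => (Iw593 w).one_mem⟩

end Fermat.Agent.LT.T7.H593DS

end
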